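import Mathlib
import Fermat.Agent.S17.GDiv.Defs
import Fermat.Agent.S17.H800.Der

/-!
# S17 / G-DIV, piece DER: reduction to the two local statements (helper797)

`DL d` is the coefficientwise derivation of `F_L = L · F₀ ⊆ L((q))` attached to a derivation `d`
of `L`.  A place `P` of `F_L` is of CONSTANT TYPE if `ord_P` is non-trivial on the functions with
rational `q`-expansion, of GENERIC TYPE otherwise.

* `StmtDERa` : at a place of constant type, `ord_P (D h) ≥ ord_P h`;
* `StmtDERb` : at a place of generic type, `t` is finite at `P`, `ord_P (D h) ≥ ord_P h - 1`,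
  `D h` is regular if `h` is a unit, and `ord_P (D h) ≥ ord_P h` if `d` kills the value of `t`;
* `stmtDER_of` : `StmtDERa → StmtDERb → GDiv.StmtDER`  (proved here);
* `stmtDPRES` : `GDiv.StmtDPRES` (proved here, from helper800's `coeffDer_mem_laurentBaseChange`).
-/

set_option autoImplicit false

noncomputable section

open AlgebraicCurve ModularCurve

namespace Fermat.Agent.S17.H797

open Fermat.Agent.Lib.RR Fermat.Agent.S17.GDiv Fermat.Agent.S17.H800

section Defs

variable {N : ℕ} {L : Type} [Field L] [Algebra ℚ L]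

/-- The coefficientwise derivation of `F_L`. -/
def DL (d : Derivation ℚ L L) : FL N L →+ FL N L where
  toFun f := ⟨coeffDer d (f : LaurentSeries L), coeffDer_mem_laurentBaseChange d _ f.2⟩
  map_zero' := Subtype.ext (map_zero _)
  map_add' _ _ := Subtype.ext (map_add _ _ _)

@[simp]
theorem coe_DL (d : Derivation ℚ L L) (f : FL N L) :
    ((DL d f : FL N L) : LaurentSeries L) = coeffDer d (f : LaurentSeries L) := rfl

theorem coeff_DL (d : Derivation ℚ L L) (f : FL N L) (m : ℤ) :
    ((DL d f : FL N L) : LaurentSeries L).coeff m = d ((f : LaurentSeries L).coeff m) := rfl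

/-- Leibniz rule. -/
theorem DL_mul (d : Derivation ℚ L L) (f g : FL N L) :
    DL d (f * g) = f * DL d g + g * DL d f :=
  Subtype.ext (coeffDer_mul d _ _)

theorem DL_algebraMap (d : Derivation ℚ L L) (c : L) :
    DL d (algebraMap L (FL N L) c) = algebraMap L (FL N L) (d c) :=
  Subtype.ext (coeffDer_algebraMap d c)

theorem DL_bcQ (d : Derivation ℚ L L) (u : modularFunctionFieldFull N) :
    DL d (bcQ N L u) = 0 :=
  Subtype.ext (coeffDer_coeffEmb d _)

theorem DL_one (d : Derivation ℚ L L) : DL d (1 : FL N L) = 0 :=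
  Subtype.ext (coeffDer_one d)

theorem DL_inv (d : Derivation ℚ L L) (f : FL N L) :
    DL d f⁻¹ = -(f⁻¹ ^ 2 * DL d f) :=
  Subtype.ext (coeffDer_inv d _)

/-- Quotient rule. -/
theorem DL_div (d : Derivation ℚ L L) (a b : FL N L) :
    DL d (a / b) = (b * DL d a - a * DL d b) * (b⁻¹) ^ 2 := by
  rcases eq_or_ne b 0 with rfl | hb
  · simp
  rw [div_eq_mul_inv, DL_mul, DL_inv]
  field_simp
  ring

/-- `P` is of constant type: `ord_P` is non-trivial on the functions with rational
`q`-expansion. -/
def IsConstType (P : Place L (FL N L)) : Prop :=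
  ∃ u : modularFunctionFieldFull N, P.ord (bcQ N L u) ≠ 0

end Defs

section Stmts

variable (N : ℕ) [NeZero N] (L : Type) [Field L] [Algebra ℚ L]

/-- **DER-a**: places of constant type. -/
def StmtDERa : Prop :=
  ∀ (d : Derivation ℚ L L) (P : Place L (FL N L)), IsConstType P →
    ∀ h : FL N L, DL d h = 0 ∨ P.ord h ≤ P.ord (DL d h)

/-- **DER-b**: places of generic type. -/
def StmtDERb : Prop :=
  ∀ (d : Derivation ℚ L L) (P : Place L (FL N L)), ¬ IsConstType P →
    (∃ c : L, HasValue P (tL N L) c) ∧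
    ∀ h : FL N L, DL d h = 0 ∨
      (P.ord h - 1 ≤ P.ord (DL d h) ∧
        (P.ord h = 0 → 0 ≤ P.ord (DL d h)) ∧
        ((∀ c : L, HasValue P (tL N L) c → d c = 0) → P.ord h ≤ P.ord (DL d h)))

variable {N L}

omit [NeZero N] in
/-- **DPRES**. -/
theorem stmtDPRES [FF1 L (FL N L)] : StmtDPRES N L :=
  fun d f => ⟨DL d f, fun m => coeff_DL d f m⟩

/-- **DER** from the two local statements. -/
theorem stmtDER_of [FF1 L (FL N L)] (ha : StmtDERa N L) (hb : StmtDERb N L) : StmtDER N L := by
  intro d f g hf hg P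
  have hgf : g * f = DL d f := by
    apply Subtype.ext
    ext m
    exact hg m
  by_cases hg0 : g = 0
  · exact Or.inl hg0
  refine Or.inr ?_
  have hD0 : DL d f ≠ 0 := by
    rw [← hgf]
    exact mul_ne_zero hg0 hf
  have hord : P.ord (DL d f) = P.ord g + P.ord f := by
    rw [← hgf]
    exact P.ord_mul hg0 hf
  by_cases hP : IsConstType P
  · have h1 := (ha d P hP f).resolve_left hD0
    rw [hord] at h1
    have h0 : 0 ≤ P.ord g := by linarith
    exact ⟨by linarith, fun _ => h0, fun _ _ _ => h0⟩
  · obtain ⟨-, hb'⟩ := hb d P hP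
    obtain ⟨h1, h2, h3⟩ := (hb' f).resolve_left hD0
    rw [hord] at h1 h2 h3
    refine ⟨by linarith, fun h => by have := h2 h; linarith, fun K₁ hK₁ hrat => ?_⟩
    have := h3 (fun c hc => hK₁ c (hrat (jQ N) c hc))
    linarith

end Stmts

end Fermat.Agent.S17.H797
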